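import Fermat.Agent.Lib.Haupt.Formal

/-!
# The four formal modular identities, up to the Sturm bound (helper637)

`Phi1 … Phi4 : PowerSeries ℤ` are the differences of the two sides of the modular-form identities
behind the Hauptmodul relations for `Γ₀(2)` and `Γ₀(3)`.  Here we check by a kernel computation
that their coefficients vanish up to the Sturm bound.
-/

set_option autoImplicit false

noncomputable section

namespace Fermat.Agent.Lib.Haupt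

open PowerSeries

/-- The formal `E₄`. -/
abbrev E4Z : PowerSeries ℤ := ModularCurve.eisenstein4

/-- The formal `Δ = X · ∏ (1 - Xⁿ)²⁴` over `ℤ`. -/
def DeltaZ : PowerSeries ℤ := X * ModularCurve.etaProd ^ 24

/-- `f(X^d)`. -/
abbrev ex (d : ℕ) [NeZero d] (f : PowerSeries ℤ) : PowerSeries ℤ := expand d (NeZero.ne d) f

/-- `E₄³ Δ Δ₂ - (Δ + 256 Δ₂)³`. -/
def Phi1 : PowerSeries ℤ :=
  E4Z ^ 3 * (DeltaZ * ex 2 DeltaZ) - (DeltaZ + C 256 * ex 2 DeltaZ) ^ 3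

/-- `E₄(2τ)³ Δ Δ₂ - (Δ + 16 Δ₂)³`. -/
def Phi2 : PowerSeries ℤ :=
  ex 2 E4Z ^ 3 * (DeltaZ * ex 2 DeltaZ) - (DeltaZ + C 16 * ex 2 DeltaZ) ^ 3

/-- `Δ Δ₃ (E₄³ - 756 Δ - 19131876 Δ₃)² - (Δ² + 196830 Δ Δ₃ + 387420489 Δ₃²)²`. -/
def Phi3 : PowerSeries ℤ :=
  (DeltaZ * ex 3 DeltaZ) * (E4Z ^ 3 - (C 756 * DeltaZ + C 19131876 * ex 3 DeltaZ)) ^ 2
    - (DeltaZ ^ 2 + (C 196830 * (DeltaZ * ex 3 DeltaZ) + C 387420489 * ex 3 DeltaZ ^ 2)) ^ 2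

/-- `Δ Δ₃ (E₄(3τ)³ - 36 Δ - 756 Δ₃)² - (Δ² + 270 Δ Δ₃ + 729 Δ₃²)²`. -/
def Phi4 : PowerSeries ℤ :=
  (DeltaZ * ex 3 DeltaZ) * (ex 3 E4Z ^ 3 - (C 36 * DeltaZ + C 756 * ex 3 DeltaZ)) ^ 2
    - (DeltaZ ^ 2 + (C 270 * (DeltaZ * ex 3 DeltaZ) + C 729 * ex 3 DeltaZ ^ 2)) ^ 2

theorem tr_DeltaZ (M : ℕ) : tr M DeltaZ = lshift M 1 (lpow M (lEuler M M) 24) := by
  rw [DeltaZ, ← pow_one (X : PowerSeries ℤ), tr_X_pow_mul, tr_pow, tr_etaProd]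

set_option maxRecDepth 1000000 in
theorem tr_Phi1 : tr 13 Phi1 = List.replicate 13 0 := by
  simp only [Phi1, tr_sub, tr_mul, tr_pow, tr_add, tr_C, tr_expand, tr_DeltaZ,
    tr_eisenstein4]
  decide

end Fermat.Agent.Lib.Haupt

namespace Fermat.Agent.Lib.Haupt

open PowerSeries

set_option maxRecDepth 1000000 in
theorem tr_Phi2 : tr 13 Phi2 = List.replicate 13 0 := by
  simp only [Phi2, tr_sub, tr_mul, tr_pow, tr_add, tr_C, tr_expand, tr_DeltaZ,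
    tr_eisenstein4]
  decide

set_option maxRecDepth 1000000 in
theorem tr_Phi3 : tr 37 Phi3 = List.replicate 37 0 := by
  simp only [Phi3, tr_sub, tr_mul, tr_pow, tr_add, tr_C, tr_expand, tr_DeltaZ,
    tr_eisenstein4]
  decide

set_option maxRecDepth 1000000 in
theorem tr_Phi4 : tr 37 Phi4 = List.replicate 37 0 := by
  simp only [Phi4, tr_sub, tr_mul, tr_pow, tr_add, tr_C, tr_expand, tr_DeltaZ,
    tr_eisenstein4]
  decide

theorem coeff_Phi1 {n : ℕ} (hn : n < 13) : coeff n Phi1 = 0 := coeff_eq_zero_of_tr_eq tr_Phi1 hn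
theorem coeff_Phi2 {n : ℕ} (hn : n < 13) : coeff n Phi2 = 0 := coeff_eq_zero_of_tr_eq tr_Phi2 hn
theorem coeff_Phi3 {n : ℕ} (hn : n < 37) : coeff n Phi3 = 0 := coeff_eq_zero_of_tr_eq tr_Phi3 hn
theorem coeff_Phi4 {n : ℕ} (hn : n < 37) : coeff n Phi4 = 0 := coeff_eq_zero_of_tr_eq tr_Phi4 hn

end Fermat.Agent.Lib.Haupt
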