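import Fermat.Agent.Lib.Haupt.Level
import Fermat.Agent.Lib.Haupt.Coeffs
import Fermat.Agent.S24.JFun.QExp
import Mathlib.NumberTheory.ModularForms.CuspFormSubmodule

/-!
# `q`-expansions of `E₄`, `Δ` and their level-raised versions (helper637)
-/

set_option autoImplicit false

open UpperHalfPlane ModularForm CongruenceSubgroup MatrixGroups
open Matrix.SpecialLinearGroup Filter Topology
open scoped Manifold

noncomputable section

namespace Fermat.Agent.Lib.Haupt

open Fermat.Agent.S24.JFun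

local notation "𝕢" => Function.Periodic.qParam

/-- The discriminant as a level-one modular form. -/
def DeltaMF : ModularForm 𝒮ℒ 12 := CuspForm.toModularFormₗ CuspForm.discriminant

theorem coe_DeltaMF : (DeltaMF : ℍ → ℂ) = ModularForm.discriminant := rfl

theorem analyticAt_qParam : AnalyticAt ℂ (cuspFunction 1 (fun τ : ℍ => 𝕢 1 (τ : ℂ))) 0 :=
  ofQ_analyticAt (g := fun q => q) differentiableOn_id

theorem qExpansion_qParam : qExpansion 1 (fun τ : ℍ => 𝕢 1 (τ : ℂ)) = PowerSeries.X := by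
  ext m
  rw [PowerSeries.coeff_X]
  refine qExpansion_coeff_unique_fun (c := fun m => if m = 1 then 1 else 0) analyticAt_qParam
    (fun τ => ?_) m
  have h := hasSum_ite_eq (1 : ℕ) (𝕢 1 (τ : ℂ))
  have hfun : (fun m : ℕ => (if m = 1 then (1 : ℂ) else 0) • 𝕢 1 (τ : ℂ) ^ m)
      = fun m : ℕ => if m = 1 then 𝕢 1 (τ : ℂ) else 0 := by
    funext m
    split_ifs with hm
    · rw [hm, pow_one, one_smul]
    · rw [zero_smul]
  rw [hfun]
  exact h

theorem qExpansion_DeltaMF :
    qExpansion 1 DeltaMF = DeltaZ.map (Int.castRingHom ℂ) := by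
  have hfun : (DeltaMF : ℍ → ℂ) = (fun τ : ℍ => 𝕢 1 (τ : ℂ)) * (fun τ => eulerFun τ ^ 24) := by
    funext τ
    rw [coe_DeltaMF]
    exact discriminant_eq_q_mul_eulerFun τ
  rw [hfun, qExpansion_mul analyticAt_qParam (analyticAt_eulerFun_pow 24), qExpansion_qParam,
    qExpansion_eulerFun_pow, DeltaZ, map_mul, map_pow, PowerSeries.map_X]

theorem qExpansion_E4 :
    qExpansion 1 (E₄ : ModularForm 𝒮ℒ 4) = ModularCurve.eisenstein4.map (Int.castRingHom ℂ) :=
  qExpansion_E₄

end Fermat.Agent.Lib.Haupt
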