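import Fermat.Agent.Lib.Haupt.Main
import Fermat.Prelude.Def_ModularCurve_LaurentCoeff

/-!
# Hauptmodul relations in `K((q))` for every commutative ring `K` (helper637)

* `t2 K`, `t3 K : LaurentSeries K`;
* `jq_mul_t2_sq`   : `jqModC K * t2 K ^ 2 = (t2 K + 256) ^ 3`
* `jq2_mul_t2`     : `qExpand K 2 (jqModC K) * t2 K = (t2 K + 16) ^ 3`
* `jq_mul_t3_cube` : `jqModC K * t3 K ^ 3 = (t3 K + 27) * (t3 K + 243) ^ 3`
* `jq3_mul_t3`     : `qExpand K 3 (jqModC K) * t3 K = (t3 K + 27) * (t3 K + 3) ^ 3`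
* `coeffMap_t2`, `coeffMap_t3` : compatibility with change of coefficients.
-/

set_option autoImplicit false

noncomputable section

namespace Fermat.Agent.Lib.Haupt

open PowerSeries HahnSeries ModularCurve

variable (K : Type*) [CommRing K]

/-- `q⁻¹ · f(q)` for an integral power series `f`, with coefficients in `K`. -/
def lau (f : PowerSeries ℤ) : LaurentSeries K :=
  HahnSeries.ofPowerSeries ℤ K (f.map (Int.castRingHom K))

/-- `q⁻¹`. -/
def qinv : LaurentSeries K := HahnSeries.single (-1 : ℤ) 1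

theorem lau_mul (f g : PowerSeries ℤ) : lau K (f * g) = lau K f * lau K g := by
  rw [lau, map_mul, map_mul]; rfl

theorem lau_add (f g : PowerSeries ℤ) : lau K (f + g) = lau K f + lau K g := by
  rw [lau, map_add, map_add]; rfl

theorem lau_pow (f : PowerSeries ℤ) (n : ℕ) : lau K (f ^ n) = lau K f ^ n := by
  rw [lau, map_pow, map_pow]; rfl

theorem qinv_mul_lau_X : qinv K * lau K X = 1 := by
  rw [qinv, lau, PowerSeries.map_X, HahnSeries.ofPowerSeries_X, HahnSeries.single_mul_single]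
  simp

theorem lau_C (c : ℤ) : lau K (C c) = (c : LaurentSeries K) := by
  rw [lau, PowerSeries.map_C, HahnSeries.ofPowerSeries_C]
  simp

theorem jqModC_eq : jqModC K = qinv K * lau K jNum := rfl

/-- The Hauptmodul of `Γ₀(2)`: `t₂ = Δ(q)/Δ(q²)`. -/
def t2 : LaurentSeries K := qinv K * lau K T2

/-- The Hauptmodul of `Γ₀(3)`: `t₃ = (η(q)/η(q³))¹²`. -/
def t3 : LaurentSeries K := qinv K * lau K T3

theorem t_add_const (T : PowerSeries ℤ) (c : ℤ) :
    qinv K * lau K T + (c : LaurentSeries K) = qinv K * lau K (T + C c * X) := by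
  rw [lau_add, lau_mul, lau_C, mul_add, mul_left_comm, qinv_mul_lau_X, mul_one]

/-- `j · t₂² = (t₂ + 256)³`. -/
theorem jq_mul_t2_sq : jqModC K * t2 K ^ 2 = (t2 K + 256) ^ 3 := by
  have h := congrArg (fun f => qinv K ^ 3 * lau K f) T2_rel₁
  simp only [lau_mul, lau_pow] at h
  have e : (t2 K + 256) = qinv K * lau K (T2 + C 256 * X) := by
    rw [← t_add_const, t2]; simp
  rw [e, jqModC_eq, t2]
  linear_combination h

theorem qExpand_ofPowerSeries (d : ℕ) [NeZero d] (g : PowerSeries K) :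
    qExpand K d (HahnSeries.ofPowerSeries ℤ K g)
      = HahnSeries.ofPowerSeries ℤ K (PowerSeries.expand d (NeZero.ne d) g) := by
  have hd : (0 : ℤ) < d := by exact_mod_cast Nat.pos_of_ne_zero (NeZero.ne d)
  ext k
  by_cases hk : (d : ℤ) ∣ k
  · obtain ⟨m, rfl⟩ := hk
    rw [qExpand_coeff_mul]
    rcases le_or_gt 0 m with hm | hm
    · lift m to ℕ using hm
      rw [HahnSeries.ofPowerSeries_apply_coeff, show (d : ℤ) * (m : ℤ) = ((d * m : ℕ) : ℤ) by
        push_cast; ring, HahnSeries.ofPowerSeries_apply_coeff, PowerSeries.coeff_expand_mul]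
    · rw [ofPowerSeries_coeff_of_neg _ hm, ofPowerSeries_coeff_of_neg _ (by nlinarith)]
  · rw [qExpand_coeff_of_not_dvd d _ hk]
    rcases le_or_gt 0 k with hk0 | hk0
    · lift k to ℕ using hk0
      rw [HahnSeries.ofPowerSeries_apply_coeff, PowerSeries.coeff_expand_of_not_dvd]
      intro h
      exact hk (by exact_mod_cast h)
    · rw [ofPowerSeries_coeff_of_neg _ hk0]

theorem qExpand_lau (d : ℕ) [NeZero d] (f : PowerSeries ℤ) :
    qExpand K d (lau K f) = lau K (ex d f) := by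
  rw [lau, qExpand_ofPowerSeries, lau, ex, PowerSeries.map_expand]

theorem qExpand_qinv (d : ℕ) [NeZero d] : qExpand K d (qinv K) = qinv K ^ d := by
  rw [qinv, qExpand_single, HahnSeries.single_pow, one_pow]
  simp

theorem qExpand_jqModC (d : ℕ) [NeZero d] :
    qExpand K d (jqModC K) = qinv K ^ d * lau K (ex d jNum) := by
  rw [jqModC_eq, map_mul, qExpand_qinv, qExpand_lau]

/-- `j(q²) · t₂ = (t₂ + 16)³`. -/
theorem jq2_mul_t2 : qExpand K 2 (jqModC K) * t2 K = (t2 K + 16) ^ 3 := by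
  have h := congrArg (fun f => qinv K ^ 3 * lau K f) T2_rel₂
  simp only [lau_mul, lau_pow] at h
  have e : (t2 K + 16) = qinv K * lau K (T2 + C 16 * X) := by
    rw [← t_add_const, t2]; simp
  rw [e, qExpand_jqModC, t2]
  linear_combination h

/-- `j · t₃³ = (t₃ + 27)(t₃ + 243)³`. -/
theorem jq_mul_t3_cube : jqModC K * t3 K ^ 3 = (t3 K + 27) * (t3 K + 243) ^ 3 := by
  have h := congrArg (fun f => qinv K ^ 4 * lau K f) T3_rel₁
  simp only [lau_mul, lau_pow] at h
  have e1 : (t3 K + 27) = qinv K * lau K (T3 + C 27 * X) := by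
    rw [← t_add_const, t3]; simp
  have e2 : (t3 K + 243) = qinv K * lau K (T3 + C 243 * X) := by
    rw [← t_add_const, t3]; simp
  rw [e1, e2, jqModC_eq, t3]
  linear_combination h

/-- `j(q³) · t₃ = (t₃ + 27)(t₃ + 3)³`. -/
theorem jq3_mul_t3 : qExpand K 3 (jqModC K) * t3 K = (t3 K + 27) * (t3 K + 3) ^ 3 := by
  have h := congrArg (fun f => qinv K ^ 4 * lau K f) T3_rel₂
  simp only [lau_mul, lau_pow] at h
  have e1 : (t3 K + 27) = qinv K * lau K (T3 + C 27 * X) := by
    rw [← t_add_const, t3]; simp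
  have e2 : (t3 K + 3) = qinv K * lau K (T3 + C 3 * X) := by
    rw [← t_add_const, t3]; simp
  rw [e1, e2, qExpand_jqModC, t3]
  linear_combination h

/-! ### Basic properties -/

variable {K}

theorem coeffMap_ofPS {K' : Type*} [CommRing K'] (φ : K →+* K') (p : PowerSeries K) :
    coeffMap φ (HahnSeries.ofPowerSeries ℤ K p) = HahnSeries.ofPowerSeries ℤ K' (p.map φ) := by
  ext k
  rw [coeffMap_coeff]
  rcases le_or_gt 0 k with hk | hk
  · lift k to ℕ using hk
    rw [HahnSeries.ofPowerSeries_apply_coeff, HahnSeries.ofPowerSeries_apply_coeff,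
      PowerSeries.coeff_map]
  · rw [ofPowerSeries_coeff_of_neg _ hk, ofPowerSeries_coeff_of_neg _ hk, map_zero]

theorem coeffMap_lau {K' : Type*} [CommRing K'] (φ : K →+* K') (g : PowerSeries ℤ) :
    coeffMap φ (lau K g) = lau K' g := by
  rw [lau, lau, coeffMap_ofPS,
    ← RingHom.comp_apply (PowerSeries.map φ) (PowerSeries.map (Int.castRingHom K)),
    ← PowerSeries.map_comp, RingHom.ext_int (φ.comp (Int.castRingHom K)) (Int.castRingHom K')]

theorem coeffMap_qinv {K' : Type*} [CommRing K'] (φ : K →+* K') :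
    coeffMap φ (qinv K) = qinv K' := by
  rw [qinv, coeffMap_single, map_one, qinv]

/-- `t₂` is compatible with every change of coefficients (base change, reduction mod `ℓ`). -/
theorem coeffMap_t2 {K' : Type*} [CommRing K'] (φ : K →+* K') :
    coeffMap φ (t2 K) = t2 K' := by
  rw [t2, map_mul, coeffMap_qinv, coeffMap_lau, t2]

/-- `t₃` is compatible with every change of coefficients (base change, reduction mod `ℓ`). -/
theorem coeffMap_t3 {K' : Type*} [CommRing K'] (φ : K →+* K') :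
    coeffMap φ (t3 K) = t3 K' := by
  rw [t3, map_mul, coeffMap_qinv, coeffMap_lau, t3]

variable (K)

theorem coeff_qinv_mul_lau (g : PowerSeries ℤ) (k : ℤ) :
    (qinv K * lau K g).coeff k = (lau K g).coeff (k + 1) := by
  rw [qinv, HahnSeries.coeff_single_mul, one_mul, sub_neg_eq_add]

theorem coeff_lau_natCast (g : PowerSeries ℤ) (n : ℕ) :
    (lau K g).coeff (n : ℤ) = ((PowerSeries.coeff n g : ℤ) : K) := by
  rw [lau, HahnSeries.ofPowerSeries_apply_coeff, PowerSeries.coeff_map, eq_intCast]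

theorem coeff_lau_of_neg (g : PowerSeries ℤ) {k : ℤ} (hk : k < 0) : (lau K g).coeff k = 0 :=
  ofPowerSeries_coeff_of_neg _ hk

/-- `t₂ = q⁻¹ + …`. -/
theorem coeff_t2_neg_one : (t2 K).coeff (-1) = 1 := by
  rw [t2, coeff_qinv_mul_lau, show (-1 : ℤ) + 1 = ((0 : ℕ) : ℤ) by norm_num, coeff_lau_natCast,
    PowerSeries.coeff_zero_eq_constantCoeff, constantCoeff_T2, Int.cast_one]

theorem coeff_t2_of_lt {k : ℤ} (hk : k < -1) : (t2 K).coeff k = 0 := by
  rw [t2, coeff_qinv_mul_lau, coeff_lau_of_neg K _ (by omega)]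

/-- `t₃ = q⁻¹ + …`. -/
theorem coeff_t3_neg_one : (t3 K).coeff (-1) = 1 := by
  rw [t3, coeff_qinv_mul_lau, show (-1 : ℤ) + 1 = ((0 : ℕ) : ℤ) by norm_num, coeff_lau_natCast,
    PowerSeries.coeff_zero_eq_constantCoeff, constantCoeff_T3, Int.cast_one]

theorem coeff_t3_of_lt {k : ℤ} (hk : k < -1) : (t3 K).coeff k = 0 := by
  rw [t3, coeff_qinv_mul_lau, coeff_lau_of_neg K _ (by omega)]

theorem t2_ne_zero [Nontrivial K] : t2 K ≠ 0 := fun h => by
  have := coeff_t2_neg_one K
  rw [h] at this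
  simp at this

theorem t3_ne_zero [Nontrivial K] : t3 K ≠ 0 := fun h => by
  have := coeff_t3_neg_one K
  rw [h] at this
  simp at this

/-- `t₂` is a root of the monic cubic `T³ + (768 - j) T² + 196608 T + 16777216` over `ℤ[j]`. -/
theorem t2_cubic :
    t2 K ^ 3 + (768 - jqModC K) * t2 K ^ 2 + 196608 * t2 K + 16777216 = 0 := by
  linear_combination -(jq_mul_t2_sq K)

/-- `t₂` is a root of the monic cubic `T³ + 48 T² + (768 - j(q²)) T + 4096` over `ℤ[j(q²)]`. -/
theorem t2_cubic' :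
    t2 K ^ 3 + 48 * t2 K ^ 2 + (768 - qExpand K 2 (jqModC K)) * t2 K + 4096 = 0 := by
  linear_combination -(jq2_mul_t2 K)

/-- `t₃` is a root of the monic quartic `T⁴ + (756 - j) T³ + 196830 T² + 19131876 T + 387420489`
over `ℤ[j]`. -/
theorem t3_quartic :
    t3 K ^ 4 + (756 - jqModC K) * t3 K ^ 3 + 196830 * t3 K ^ 2 + 19131876 * t3 K + 387420489
      = 0 := by
  linear_combination -(jq_mul_t3_cube K)

/-- `t₃` is a root of the monic quartic `T⁴ + 36 T³ + 270 T² + (756 - j(q³)) T + 729`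
over `ℤ[j(q³)]`. -/
theorem t3_quartic' :
    t3 K ^ 4 + 36 * t3 K ^ 3 + 270 * t3 K ^ 2 + (756 - qExpand K 3 (jqModC K)) * t3 K + 729
      = 0 := by
  linear_combination -(jq3_mul_t3 K)

/-- `j - 1728 = (t₂ + 64)(t₂ - 512)² / t₂²`: the elliptic point of order 2 of `X₀(2)` is
`t₂ = -64`; `t₂ = 512` lies over `j = 1728` with ramification index `2` (not a branch value of
higher levels over the `t₂`-line). -/
theorem jq_sub_1728_mul_t2_sq :
    (jqModC K - 1728) * t2 K ^ 2 = (t2 K + 64) * (t2 K - 512) ^ 2 := by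
  linear_combination jq_mul_t2_sq K

/-- `j - 1728 = (t₃² - 486 t₃ - 19683)² / t₃³`: `X₀(3)` has no elliptic point of order 2. -/
theorem jq_sub_1728_mul_t3_cube :
    (jqModC K - 1728) * t3 K ^ 3 = (t3 K ^ 2 - 486 * t3 K - 19683) ^ 2 := by
  linear_combination jq_mul_t3_cube K

end Fermat.Agent.Lib.Haupt
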