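import Mathlib.NumberTheory.ModularForms.QExpansion
import Mathlib.NumberTheory.ModularForms.CongruenceSubgroups
import Mathlib.RingTheory.PowerSeries.Expand
import Fermat.Agent.S20.F_helper658
import Fermat.Prelude.Thm_CongruenceSubgroup_one_mem_strictPeriods_Gamma0

/-!
# Level raising `f(τ) ↦ f(dτ)` for level-one modular forms (helper637)

* `res d f` : a level-one form viewed on `Γ₀(d)`;
* `lev d f` : `τ ↦ f (d τ)` as a modular form on `Γ₀(d)`;
* `qExpansion_lev` : its `q`-expansion is `PowerSeries.expand d` of the `q`-expansion of `f`.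
-/

set_option autoImplicit false

open UpperHalfPlane ModularForm CongruenceSubgroup MatrixGroups
open Matrix.SpecialLinearGroup Filter Topology
open scoped Manifold

noncomputable section

namespace Fermat.Agent.Lib.Haupt

open Fermat.Agent.S20.F658

local notation "𝕢" => Function.Periodic.qParam

/-- `Γ₀(d)` as a subgroup of `GL(2, ℝ)`. -/
abbrev G0 (d : ℕ) : Subgroup (GL (Fin 2) ℝ) := (Gamma0 d : Subgroup (GL (Fin 2) ℝ))

theorem G0_le_SL (d : ℕ) : G0 d ≤ 𝒮ℒ := by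
  rintro _ ⟨A, -, rfl⟩
  exact ⟨A, rfl⟩

theorem one_mem_strictPeriods_G0 (d : ℕ) : (1 : ℝ) ∈ (G0 d).strictPeriods :=
  CongruenceSubgroup.one_mem_strictPeriods_Gamma0 d

/-- A level-one modular form, viewed as a modular form on `Γ₀(d)`. -/
def res (d : ℕ) {k : ℤ} (f : ModularForm 𝒮ℒ k) : ModularForm (G0 d) k where
  toFun := f
  slash_action_eq' γ hγ := f.slash_action_eq' γ (G0_le_SL d hγ)
  holo' := f.holo'
  bdd_at_cusps' hc := f.bdd_at_cusps' (hc.mono (G0_le_SL d))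

@[simp] theorem coe_res (d : ℕ) {k : ℤ} (f : ModularForm 𝒮ℒ k) : (res d f : ℍ → ℂ) = f := rfl

open ConjAct Pointwise in
/-- `f ∣[k] diag(d, 1)` as a modular form on `Γ₀(d)`. -/
def levRaw (d : ℕ) [NeZero d] {k : ℤ} (f : ModularForm 𝒮ℒ k) : ModularForm (G0 d) k where
  toFun := (f : ℍ → ℂ) ∣[k] gN d
  slash_action_eq' γ hγ :=
    (ModularForm.translate f (gN d)).slash_action_eq' γ (Gamma0_le_conj d hγ)
  holo' := (ModularForm.translate f (gN d)).holo'
  bdd_at_cusps' hc :=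
    (ModularForm.translate f (gN d)).bdd_at_cusps' (hc.mono (Gamma0_le_conj d))

theorem coe_levRaw (d : ℕ) [NeZero d] {k : ℤ} (f : ModularForm 𝒮ℒ k) :
    (levRaw d f : ℍ → ℂ) = (f : ℍ → ℂ) ∣[k] gN d := rfl

theorem gN_det_pos (d : ℕ) [NeZero d] : 0 < (gN d).det.val := by
  rw [gN_det]
  exact_mod_cast Nat.pos_of_ne_zero (NeZero.ne d)

theorem denom_gN (d : ℕ) [NeZero d] (τ : ℍ) : denom (gN d) τ = 1 := by
  simp [denom, gN_val]

theorem coe_gN_smul (d : ℕ) [NeZero d] (τ : ℍ) : ((gN d • τ : ℍ) : ℂ) = d * (τ : ℂ) := by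
  rw [UpperHalfPlane.coe_smul_of_det_pos (gN_det_pos d)]
  simp [num, denom, gN_val]

theorem levRaw_apply (d : ℕ) [NeZero d] {k : ℤ} (f : ModularForm 𝒮ℒ k) (τ : ℍ) :
    levRaw d f τ = f (gN d • τ) * (d : ℂ) ^ (k - 1) := by
  show ((f : ℍ → ℂ) ∣[k] gN d) τ = _
  rw [ModularForm.slash_apply, denom_gN, one_zpow, mul_one, gN_det]
  have hσ : σ (gN d) = ContinuousAlgEquiv.refl ℝ ℂ := by
    unfold σ
    rw [if_pos (gN_det_pos d)]
  rw [hσ]
  simp

end Fermat.Agent.Lib.Haupt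

namespace Fermat.Agent.Lib.Haupt

open Fermat.Agent.S20.F658

local notation "𝕢" => Function.Periodic.qParam

/-- `τ ↦ f (d τ)` as a modular form on `Γ₀(d)`. -/
def lev (d : ℕ) [NeZero d] {k : ℤ} (f : ModularForm 𝒮ℒ k) : ModularForm (G0 d) k :=
  (((d : ℂ) ^ (k - 1))⁻¹ : ℂ) • levRaw d f

theorem lev_apply (d : ℕ) [NeZero d] {k : ℤ} (f : ModularForm 𝒮ℒ k) (τ : ℍ) :
    lev d f τ = f (gN d • τ) := by
  have hd : ((d : ℂ) ^ (k - 1)) ≠ 0 := zpow_ne_zero _ (by exact_mod_cast NeZero.ne d)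
  show (((d : ℂ) ^ (k - 1))⁻¹ • levRaw d f) τ = _
  rw [smul_apply, levRaw_apply, smul_eq_mul]
  field_simp

theorem qParam_gN_smul (d : ℕ) [NeZero d] (τ : ℍ) :
    𝕢 1 ((gN d • τ : ℍ) : ℂ) = 𝕢 1 (τ : ℂ) ^ d := by
  rw [coe_gN_smul]
  unfold Function.Periodic.qParam
  rw [← Complex.exp_nat_mul]
  congr 1
  ring

theorem hasSum_lev (d : ℕ) [NeZero d] {k : ℤ} (f : ModularForm 𝒮ℒ k) (τ : ℍ) :
    HasSum (fun m : ℕ => (if d ∣ m then (qExpansion 1 f).coeff (m / d) else 0) •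
      𝕢 1 (τ : ℂ) ^ m) (lev d f τ) := by
  have hd : 0 < d := Nat.pos_of_ne_zero (NeZero.ne d)
  have h := ModularForm.hasSum_qExpansion (f := f) one_pos one_mem_strictPeriods_SL (gN d • τ)
  rw [qParam_gN_smul, ← lev_apply] at h
  have hinj : Function.Injective (fun n : ℕ => d * n) := fun a b hab =>
    Nat.eq_of_mul_eq_mul_left hd hab
  rw [← hinj.hasSum_iff]
  · have hfun : ((fun m : ℕ => (if d ∣ m then (qExpansion 1 f).coeff (m / d) else 0) •
        𝕢 1 (τ : ℂ) ^ m) ∘ fun n : ℕ => d * n)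
        = fun m : ℕ => (qExpansion 1 f).coeff m * (𝕢 1 (τ : ℂ) ^ d) ^ m := by
      funext n
      simp only [Function.comp_apply, dvd_mul_right, if_true, Nat.mul_div_cancel_left n hd,
        smul_eq_mul, pow_mul]
    rw [hfun]
    exact h
  · intro m hm
    have : ¬ d ∣ m := fun ⟨c, hc⟩ => hm ⟨c, hc.symm⟩
    simp [this]

end Fermat.Agent.Lib.Haupt

namespace Fermat.Agent.Lib.Haupt

/-- The `q`-expansion of `τ ↦ f (d τ)` is `expand d` of the `q`-expansion of `f`. -/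
theorem qExpansion_lev (d : ℕ) [NeZero d] {k : ℤ} (f : ModularForm 𝒮ℒ k) :
    qExpansion 1 (lev d f) = PowerSeries.expand d (NeZero.ne d) (qExpansion 1 f) := by
  ext m
  rw [PowerSeries.coeff_expand]
  exact (ModularFormClass.qExpansion_coeff_unique one_pos (one_mem_strictPeriods_G0 d)
    (f := lev d f) (hasSum_lev d f) m).symm

theorem qExpansion_res (d : ℕ) {k : ℤ} (f : ModularForm 𝒮ℒ k) :
    qExpansion 1 (res d f) = qExpansion 1 f := rfl

end Fermat.Agent.Lib.Haupt
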