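import Fermat.Agent.Lib.Haupt.PS
import Fermat.Prelude.Def_ModularCurve_JqCoeff

/-!
# Hauptmoduln of `Γ₀(2)` and `Γ₀(3)`: the relations with `j` (helper637)

For every commutative ring `K`:

* `t2 K = Δ(q)/Δ(q²) = q⁻¹ ∏ (1 - qⁿ)²⁴ / (1 - q²ⁿ)²⁴ ∈ K((q))`,
  `jq_mul_t2_sq  : j · t₂² = (t₂ + 256)³`,
  `jq2_mul_t2    : j(q²) · t₂ = (t₂ + 16)³`;
* `t3 K = q⁻¹ ∏ (1 - qⁿ)¹² / (1 - q³ⁿ)¹² ∈ K((q))`,
  `jq_mul_t3_cube : j · t₃³ = (t₃ + 27)(t₃ + 243)³`,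
  `jq3_mul_t3     : j(q³) · t₃ = (t₃ + 27)(t₃ + 3)³`,

where `j = ModularCurve.jqModC K` and `j(q^d) = ModularCurve.qExpand K d (jqModC K)`
(`= jqNModC K d`).  The integral power series versions are `T2_rel₁`, `T2_rel₂`, `T3_rel₁`,
`T3_rel₂`.
-/

set_option autoImplicit false

noncomputable section

namespace Fermat.Agent.Lib.Haupt

open PowerSeries

/-- `P(X²)²⁴`. -/
abbrev Q2 : PowerSeries ℤ := ex 2 PZ ^ 24
/-- `P(X³)¹²`. -/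
abbrev Q3 : PowerSeries ℤ := ex 3 PZ ^ 12

theorem constantCoeff_Q2 : constantCoeff Q2 = 1 := by
  rw [Q2, map_pow, constantCoeff_ex, constantCoeff_PZ, one_pow]

theorem constantCoeff_Q3 : constantCoeff Q3 = 1 := by
  rw [Q3, map_pow, constantCoeff_ex, constantCoeff_PZ, one_pow]

/-- `q · t₂ = ∏ (1 - qⁿ)²⁴ / (1 - q²ⁿ)²⁴` as an integral power series. -/
def T2 : PowerSeries ℤ := PZ ^ 24 * Q2.invOfUnit 1

/-- `q · t₃ = ∏ (1 - qⁿ)¹² / (1 - q³ⁿ)¹²` as an integral power series. -/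
def T3 : PowerSeries ℤ := PZ ^ 12 * Q3.invOfUnit 1

theorem T2_mul_Q2 : T2 * Q2 = PZ ^ 24 := by
  rw [T2, mul_assoc, mul_comm (Q2.invOfUnit 1),
    PowerSeries.mul_invOfUnit _ _ (by rw [constantCoeff_Q2]; rfl), mul_one]

theorem T3_mul_Q3 : T3 * Q3 = PZ ^ 12 := by
  rw [T3, mul_assoc, mul_comm (Q3.invOfUnit 1),
    PowerSeries.mul_invOfUnit _ _ (by rw [constantCoeff_Q3]; rfl), mul_one]

theorem constantCoeff_T2 : constantCoeff T2 = 1 := by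
  have h := congrArg constantCoeff T2_mul_Q2
  rwa [map_mul, constantCoeff_Q2, mul_one, map_pow, constantCoeff_PZ, one_pow] at h

theorem constantCoeff_T3 : constantCoeff T3 = 1 := by
  have h := congrArg constantCoeff T3_mul_Q3
  rwa [map_mul, constantCoeff_Q3, mul_one, map_pow, constantCoeff_PZ, one_pow] at h

theorem jNum_mul_P24 : ModularCurve.jNum * PZ ^ 24 = E4Z ^ 3 := by
  have h := ModularCurve.dedekindEtaUnit_mul_inv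
  rw [ModularCurve.dedekindEtaUnit] at h
  rw [ModularCurve.jNum, mul_assoc, mul_comm ModularCurve.dedekindEtaUnitInv, h, mul_one]

theorem Q2_ne_zero : Q2 ≠ 0 := fun h => by
  have := constantCoeff_Q2; rw [h, map_zero] at this; exact zero_ne_one this

theorem Q3_ne_zero : Q3 ≠ 0 := fun h => by
  have := constantCoeff_Q3; rw [h, map_zero] at this; exact zero_ne_one this

theorem PZ_ne_zero : PZ ≠ 0 := fun h => by
  have := constantCoeff_PZ; rw [h, map_zero] at this; exact zero_ne_one this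

/-- `j · t₂² = (t₂ + 256)³`, integral power series form. -/
theorem T2_rel₁ : ModularCurve.jNum * T2 ^ 2 = (T2 + C 256 * X) ^ 3 := by
  apply mul_right_cancel₀ (mul_ne_zero (pow_ne_zero 24 PZ_ne_zero) (pow_ne_zero 3 Q2_ne_zero))
  calc ModularCurve.jNum * T2 ^ 2 * (PZ ^ 24 * Q2 ^ 3)
      = (ModularCurve.jNum * PZ ^ 24) * (T2 * Q2) ^ 2 * Q2 := by ring
    _ = (E4Z ^ 3 * (PZ ^ 24 * Q2)) * PZ ^ 24 := by rw [jNum_mul_P24, T2_mul_Q2]; ring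
    _ = (PZ ^ 24 + C 256 * (X * Q2)) ^ 3 * PZ ^ 24 := by rw [ps1]
    _ = (T2 * Q2 + C 256 * (X * Q2)) ^ 3 * PZ ^ 24 := by rw [T2_mul_Q2]
    _ = (T2 + C 256 * X) ^ 3 * (PZ ^ 24 * Q2 ^ 3) := by ring

theorem ex_jNum_mul (d : ℕ) [NeZero d] :
    ex d ModularCurve.jNum * ex d PZ ^ 24 = ex d E4Z ^ 3 := by
  rw [← map_pow, ← map_mul, jNum_mul_P24, map_pow]

/-- `j(q²) · t₂ = (t₂ + 16)³`, integral power series form. -/
theorem T2_rel₂ : ex 2 ModularCurve.jNum * T2 = (T2 + C 16 * X) ^ 3 := by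
  apply mul_right_cancel₀ (pow_ne_zero 3 Q2_ne_zero)
  calc ex 2 ModularCurve.jNum * T2 * Q2 ^ 3
      = (ex 2 ModularCurve.jNum * ex 2 PZ ^ 24) * (T2 * Q2) * Q2 := by ring
    _ = ex 2 E4Z ^ 3 * (PZ ^ 24 * Q2) := by rw [ex_jNum_mul, T2_mul_Q2]; ring
    _ = (PZ ^ 24 + C 16 * (X * Q2)) ^ 3 := by rw [ps2]
    _ = (T2 * Q2 + C 16 * (X * Q2)) ^ 3 := by rw [T2_mul_Q2]
    _ = (T2 + C 16 * X) ^ 3 * Q2 ^ 3 := by ring

/-- `j · t₃³ = (t₃ + 27)(t₃ + 243)³`, integral power series form. -/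
theorem T3_rel₁ :
    ModularCurve.jNum * T3 ^ 3 = (T3 + C 27 * X) * (T3 + C 243 * X) ^ 3 := by
  apply mul_right_cancel₀ (mul_ne_zero (pow_ne_zero 24 PZ_ne_zero) (pow_ne_zero 4 Q3_ne_zero))
  calc ModularCurve.jNum * T3 ^ 3 * (PZ ^ 24 * Q3 ^ 4)
      = (ModularCurve.jNum * PZ ^ 24) * (T3 * Q3) ^ 3 * Q3 := by ring
    _ = (E4Z ^ 3 * (PZ ^ 12 * Q3)) * PZ ^ 24 := by rw [jNum_mul_P24, T3_mul_Q3]; ring
    _ = (PZ ^ 12 + C 27 * (X * Q3)) * (PZ ^ 12 + C 243 * (X * Q3)) ^ 3 * PZ ^ 24 := by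
        rw [ps3]
    _ = (T3 * Q3 + C 27 * (X * Q3)) * (T3 * Q3 + C 243 * (X * Q3)) ^ 3 * PZ ^ 24 := by
        rw [T3_mul_Q3]
    _ = (T3 + C 27 * X) * (T3 + C 243 * X) ^ 3 * (PZ ^ 24 * Q3 ^ 4) := by ring

/-- `j(q³) · t₃ = (t₃ + 27)(t₃ + 3)³`, integral power series form. -/
theorem T3_rel₂ :
    ex 3 ModularCurve.jNum * T3 = (T3 + C 27 * X) * (T3 + C 3 * X) ^ 3 := by
  apply mul_right_cancel₀ (pow_ne_zero 4 Q3_ne_zero)
  have hQ : ex 3 PZ ^ 24 = Q3 ^ 2 := by rw [Q3]; ring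
  calc ex 3 ModularCurve.jNum * T3 * Q3 ^ 4
      = (ex 3 ModularCurve.jNum * ex 3 PZ ^ 24) * (T3 * Q3) * Q3 := by rw [hQ]; ring
    _ = ex 3 E4Z ^ 3 * (PZ ^ 12 * Q3) := by rw [ex_jNum_mul, T3_mul_Q3]; ring
    _ = (PZ ^ 12 + C 27 * (X * Q3)) * (PZ ^ 12 + C 3 * (X * Q3)) ^ 3 := by rw [ps4]
    _ = (T3 * Q3 + C 27 * (X * Q3)) * (T3 * Q3 + C 3 * (X * Q3)) ^ 3 := by rw [T3_mul_Q3]
    _ = (T3 + C 27 * X) * (T3 + C 3 * X) ^ 3 * Q3 ^ 4 := by ring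

end Fermat.Agent.Lib.Haupt
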