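import Fermat.Agent.Lib.Haupt.Laurent
import Fermat.Prelude.Def_ModularCurve_X0ModL

/-!
# The Hauptmoduln `t₂`, `t₃` lie in the function field of `X₀(M)` (helper637)

For EVERY field `K` (any characteristic) and every level `M`:

* `t2_mem_fullC : 2 ∣ M → t2 K ∈ modularFunctionFieldFullC K M`
* `t3_mem_fullC : 3 ∣ M → t3 K ∈ modularFunctionFieldFullC K M`
* `t2_mem_full`, `t3_mem_full` : the same for `modularFunctionFieldFull M` (`K = ℚ`).

Proof: explicit linear relations `U · t = W` with `U, W ∈ ℤ[j, j(q^d)]` (found by linear algebra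
over `ℚ[t, t⁻¹]`, checked here by `field_simp; ring` after substituting `j = (t+256)³/t²` etc.),

* `t2_lin : (j j₂ - 720 j - 720 j₂ - 16250625) · t₂ = j₂² + 4095 j + 195120 j₂ + 660960000`
* `t3_lin : U₃ · t₃ = W₃` (degree 4 in `j, j₃`),

and `U ≠ 0` because `U · t^m` is a MONIC polynomial in `t = q⁻¹ + …` (`t2_U_ne_zero`,
`t3_U_ne_zero`).
-/

set_option autoImplicit false

noncomputable section

namespace Fermat.Agent.Lib.Haupt

open PowerSeries HahnSeries ModularCurve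

section Generic

variable (K : Type*) [CommRing K]

theorem lau_neg (f : PowerSeries ℤ) : lau K (-f) = -lau K f := by
  rw [lau, map_neg, map_neg]; rfl

theorem lau_sub (f g : PowerSeries ℤ) : lau K (f - g) = lau K f - lau K g := by
  rw [sub_eq_add_neg, lau_add, lau_neg, sub_eq_add_neg]

theorem lau_one : lau K 1 = 1 := by
  rw [lau, map_one, map_one]

/-- If `f · qⁿ` is an integral power series with constant coefficient `1`, then `f ≠ 0`. -/
theorem ne_zero_of_mul_eq_lau [Nontrivial K] {f : LaurentSeries K} {n : ℕ} {P : PowerSeries ℤ}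
    (h : f * lau K X ^ n = lau K P) (hP : constantCoeff P = 1) : f ≠ 0 := by
  rintro rfl
  rw [zero_mul] at h
  have h0 := coeff_lau_natCast K P 0
  rw [← h, PowerSeries.coeff_zero_eq_constantCoeff, hP] at h0
  simp at h0

end Generic

section Field

variable (K : Type*) [Field K]

theorem lau_X_ne_zero : lau K X ≠ 0 := fun h => by
  have := qinv_mul_lau_X K
  rw [h, mul_zero] at this
  exact zero_ne_one this

theorem qinv_eq_inv : qinv K = (lau K X)⁻¹ :=
  eq_inv_of_mul_eq_one_left (qinv_mul_lau_X K)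

theorem lau_T2_ne_zero : lau K T2 ≠ 0 := fun h => by
  have := t2_ne_zero (K := K)
  rw [t2, h, mul_zero] at this
  exact this rfl

theorem lau_T3_ne_zero : lau K T3 ≠ 0 := fun h => by
  have := t3_ne_zero (K := K)
  rw [t3, h, mul_zero] at this
  exact this rfl

theorem jq_eq_t2 : jqModC K = (t2 K + 256) ^ 3 / t2 K ^ 2 := by
  rw [eq_div_iff (pow_ne_zero 2 (t2_ne_zero (K := K)))]
  exact jq_mul_t2_sq K

theorem jq2_eq_t2 : qExpand K 2 (jqModC K) = (t2 K + 16) ^ 3 / t2 K := by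
  rw [eq_div_iff (t2_ne_zero (K := K))]
  exact jq2_mul_t2 K

theorem jq_eq_t3 : jqModC K = (t3 K + 27) * (t3 K + 243) ^ 3 / t3 K ^ 3 := by
  rw [eq_div_iff (pow_ne_zero 3 (t3_ne_zero (K := K)))]
  exact jq_mul_t3_cube K

theorem jq3_eq_t3 : qExpand K 3 (jqModC K) = (t3 K + 27) * (t3 K + 3) ^ 3 / t3 K := by
  rw [eq_div_iff (t3_ne_zero (K := K))]
  exact jq3_mul_t3 K

/-! ### Level 2 -/

/-- The denominator `U₂ = j j₂ - 720 j - 720 j₂ - 16250625`. -/
def U2 : LaurentSeries K :=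
  jqModC K * qExpand K 2 (jqModC K) - 720 * jqModC K - 720 * qExpand K 2 (jqModC K) - 16250625

/-- The numerator `W₂ = j₂² + 4095 j + 195120 j₂ + 660960000`. -/
def W2 : LaurentSeries K :=
  qExpand K 2 (jqModC K) ^ 2 + 4095 * jqModC K + 195120 * qExpand K 2 (jqModC K) + 660960000

/-- `U₂ · t₂ = W₂`. -/
theorem t2_lin : U2 K * t2 K = W2 K := by
  have ht := t2_ne_zero (K := K)
  rw [U2, W2, jq2_eq_t2, jq_eq_t2]
  field_simp
  ring

/-- `q⁶ · t₂³ · U₂`, an integral power series with constant coefficient `1`. -/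
def P2 : PowerSeries ℤ :=
  (T2 + PowerSeries.C (256 : ℤ) * X) ^ 3 * (T2 + PowerSeries.C (16 : ℤ) * X) ^ 3
    - PowerSeries.C (720 : ℤ) * (T2 + PowerSeries.C (256 : ℤ) * X) ^ 3 * T2 * X ^ 2
    - PowerSeries.C (720 : ℤ) * (T2 + PowerSeries.C (16 : ℤ) * X) ^ 3 * T2 ^ 2 * X
    - PowerSeries.C (16250625 : ℤ) * T2 ^ 3 * X ^ 3

theorem constantCoeff_P2 : constantCoeff P2 = 1 := by
  simp [P2, constantCoeff_T2]

theorem U2_mul : U2 K * t2 K ^ 3 * lau K X ^ 6 = lau K P2 := by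
  have hu := lau_X_ne_zero K
  have hτ := lau_T2_ne_zero K
  have ht := t2_ne_zero (K := K)
  rw [U2, jq2_eq_t2, jq_eq_t2, P2]
  simp only [lau_sub, lau_add, lau_mul, lau_pow, lau_C]
  rw [t2, qinv_eq_inv] at ht ⊢
  push_cast
  field_simp

theorem U2_ne_zero : U2 K ≠ 0 := fun h => by
  have := ne_zero_of_mul_eq_lau K (U2_mul K) constantCoeff_P2
  rw [h, zero_mul] at this
  exact this rfl

/-! ### Level 3 -/

/-- The denominator `U₃ ∈ ℤ[j, j₃]`. -/
def U3 : LaurentSeries K :=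
  729 * jqModC K ^ 2 * qExpand K 3 (jqModC K)
    + 196830 * jqModC K * qExpand K 3 (jqModC K) ^ 2 + qExpand K 3 (jqModC K) ^ 3
    - 524880 * jqModC K ^ 2 + 18821147040 * jqModC K * qExpand K 3 (jqModC K)
    - 103456080 * qExpand K 3 (jqModC K) ^ 2 + 14229831680000 * jqModC K
    + 276373831680000 * qExpand K 3 (jqModC K) - 3623878656000000000

/-- The numerator `W₃ ∈ ℤ[j, j₃]`. -/
def W3 : LaurentSeries K :=
  jqModC K * qExpand K 3 (jqModC K) ^ 3 + 19129644 * jqModC K * qExpand K 3 (jqModC K) ^ 2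
    - 756 * qExpand K 3 (jqModC K) ^ 3 + 531440 * jqModC K ^ 2
    + 76509442080 * jqModC K * qExpand K 3 (jqModC K)
    + 23150726640 * qExpand K 3 (jqModC K) ^ 2 - 48430448640000 * jqModC K
    - 14204206448640000 * qExpand K 3 (jqModC K) + 97844723712000000000

/-- `U₃ · t₃ = W₃`. -/
theorem t3_lin : U3 K * t3 K = W3 K := by
  have ht := t3_ne_zero (K := K)
  rw [U3, W3, jq3_eq_t3, jq_eq_t3]
  field_simp
  ring

/-- `q⁴ (t₃ + 27)(t₃ + 243)³`. -/
def N3a : PowerSeries ℤ :=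
  (T3 + PowerSeries.C (27 : ℤ) * X) * (T3 + PowerSeries.C (243 : ℤ) * X) ^ 3

/-- `q⁴ (t₃ + 27)(t₃ + 3)³`. -/
def N3b : PowerSeries ℤ :=
  (T3 + PowerSeries.C (27 : ℤ) * X) * (T3 + PowerSeries.C (3 : ℤ) * X) ^ 3

/-- `q¹⁶ · t₃⁷ · U₃`, an integral power series with constant coefficient `1`. -/
def P3 : PowerSeries ℤ :=
  PowerSeries.C (729 : ℤ) * N3a ^ 2 * N3b * X ^ 4
    + PowerSeries.C (196830 : ℤ) * N3a * N3b ^ 2 * T3 ^ 2 * X ^ 2 + N3b ^ 3 * T3 ^ 4
    - PowerSeries.C (524880 : ℤ) * N3a ^ 2 * T3 * X ^ 7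
    + PowerSeries.C (18821147040 : ℤ) * N3a * N3b * T3 ^ 3 * X ^ 5
    - PowerSeries.C (103456080 : ℤ) * N3b ^ 2 * T3 ^ 5 * X ^ 3
    + PowerSeries.C (14229831680000 : ℤ) * N3a * T3 ^ 4 * X ^ 8
    + PowerSeries.C (276373831680000 : ℤ) * N3b * T3 ^ 6 * X ^ 6
    - PowerSeries.C (3623878656000000000 : ℤ) * T3 ^ 7 * X ^ 9

theorem constantCoeff_P3 : constantCoeff P3 = 1 := by
  simp [P3, N3a, N3b, constantCoeff_T3]

theorem U3_mul : U3 K * t3 K ^ 7 * lau K X ^ 16 = lau K P3 := by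
  have hu := lau_X_ne_zero K
  have hτ := lau_T3_ne_zero K
  have ht := t3_ne_zero (K := K)
  rw [U3, jq3_eq_t3, jq_eq_t3, P3, N3a, N3b]
  simp only [lau_sub, lau_add, lau_mul, lau_pow, lau_C]
  rw [t3, qinv_eq_inv] at ht ⊢
  push_cast
  field_simp

theorem U3_ne_zero : U3 K ≠ 0 := fun h => by
  have := ne_zero_of_mul_eq_lau K (U3_mul K) constantCoeff_P3
  rw [h, zero_mul] at this
  exact this rfl

/-! ### Membership -/

theorem jqModC_mem_fullC (M : ℕ) : jqModC K ∈ modularFunctionFieldFullC K M := by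
  have h := jqModCd_mem_full K M (one_dvd M)
  rwa [qExpand_one_apply] at h

theorem U2_mem (M : ℕ) (h2 : 2 ∣ M) : U2 K ∈ modularFunctionFieldFullC K M := by
  have hj := jqModC_mem_fullC K M
  have hk := jqModCd_mem_full K M h2
  rw [U2]
  exact sub_mem (sub_mem (sub_mem (mul_mem hj hk) (mul_mem (ofNat_mem _ 720) hj))
    (mul_mem (ofNat_mem _ 720) hk)) (ofNat_mem _ 16250625)

theorem W2_mem (M : ℕ) (h2 : 2 ∣ M) : W2 K ∈ modularFunctionFieldFullC K M := by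
  have hj := jqModC_mem_fullC K M
  have hk := jqModCd_mem_full K M h2
  rw [W2]
  exact add_mem (add_mem (add_mem (pow_mem hk 2) (mul_mem (ofNat_mem _ 4095) hj))
    (mul_mem (ofNat_mem _ 195120) hk)) (ofNat_mem _ 660960000)

/-- **`t₂ ∈ K(j_d : d ∣ M)` for `2 ∣ M`**, over every field `K`. -/
theorem t2_mem_fullC (M : ℕ) (h2 : 2 ∣ M) : t2 K ∈ modularFunctionFieldFullC K M := by
  have h : t2 K = W2 K / U2 K := by
    rw [eq_div_iff (U2_ne_zero K), mul_comm]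
    exact t2_lin K
  rw [h]
  exact div_mem (W2_mem K M h2) (U2_mem K M h2)

theorem U3_mem (M : ℕ) (h3 : 3 ∣ M) : U3 K ∈ modularFunctionFieldFullC K M := by
  have hj := jqModC_mem_fullC K M
  have hk := jqModCd_mem_full K M h3
  rw [U3]
  refine sub_mem (add_mem (add_mem (sub_mem (add_mem (sub_mem (add_mem (add_mem ?_ ?_) ?_) ?_)
    ?_) ?_) ?_) ?_) (ofNat_mem _ _)
  · exact mul_mem (mul_mem (ofNat_mem _ _) (pow_mem hj 2)) hk
  · exact mul_mem (mul_mem (ofNat_mem _ _) hj) (pow_mem hk 2)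
  · exact pow_mem hk 3
  · exact mul_mem (ofNat_mem _ _) (pow_mem hj 2)
  · exact mul_mem (mul_mem (ofNat_mem _ _) hj) hk
  · exact mul_mem (ofNat_mem _ _) (pow_mem hk 2)
  · exact mul_mem (ofNat_mem _ _) hj
  · exact mul_mem (ofNat_mem _ _) hk

theorem W3_mem (M : ℕ) (h3 : 3 ∣ M) : W3 K ∈ modularFunctionFieldFullC K M := by
  have hj := jqModC_mem_fullC K M
  have hk := jqModCd_mem_full K M h3
  rw [W3]
  refine add_mem (sub_mem (sub_mem (add_mem (add_mem (add_mem (sub_mem (add_mem ?_ ?_) ?_) ?_)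
    ?_) ?_) ?_) ?_) (ofNat_mem _ _)
  · exact mul_mem hj (pow_mem hk 3)
  · exact mul_mem (mul_mem (ofNat_mem _ _) hj) (pow_mem hk 2)
  · exact mul_mem (ofNat_mem _ _) (pow_mem hk 3)
  · exact mul_mem (ofNat_mem _ _) (pow_mem hj 2)
  · exact mul_mem (mul_mem (ofNat_mem _ _) hj) hk
  · exact mul_mem (ofNat_mem _ _) (pow_mem hk 2)
  · exact mul_mem (ofNat_mem _ _) hj
  · exact mul_mem (ofNat_mem _ _) hk

/-- **`t₃ ∈ K(j_d : d ∣ M)` for `3 ∣ M`**, over every field `K`. -/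
theorem t3_mem_fullC (M : ℕ) (h3 : 3 ∣ M) : t3 K ∈ modularFunctionFieldFullC K M := by
  have h : t3 K = W3 K / U3 K := by
    rw [eq_div_iff (U3_ne_zero K), mul_comm]
    exact t3_lin K
  rw [h]
  exact div_mem (W3_mem K M h3) (U3_mem K M h3)

end Field

/-- `t₂ ∈ ℚ(j_d : d ∣ M)` for `2 ∣ M`. -/
theorem t2_mem_full (M : ℕ) (h2 : 2 ∣ M) : t2 ℚ ∈ modularFunctionFieldFull M :=
  t2_mem_fullC ℚ M h2

/-- `t₃ ∈ ℚ(j_d : d ∣ M)` for `3 ∣ M`. -/
theorem t3_mem_full (M : ℕ) (h3 : 3 ∣ M) : t3 ℚ ∈ modularFunctionFieldFull M :=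
  t3_mem_fullC ℚ M h3

end Fermat.Agent.Lib.Haupt
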