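import Fermat.Agent.Lib.Haupt.Sturm

/-!
# Hauptmodul identities for `Γ₀(2)` and `Γ₀(3)` as identities of integral power series (helper637)

With `P = ∏ (1 - Xⁿ)` (`ModularCurve.etaProd`), `E = E₄` (`ModularCurve.eisenstein4`) and
`f(X^d) = PowerSeries.expand d f`:

* `ps1` : `E³ P²⁴ P₂²⁴ = (P²⁴ + 256 X P₂²⁴)³`
* `ps2` : `E(X²)³ P²⁴ P₂²⁴ = (P²⁴ + 16 X P₂²⁴)³`
* `ps3` : `E³ P¹² P₃¹² = (P¹² + 27 X P₃¹²) (P¹² + 243 X P₃¹²)³`
* `ps4` : `E(X³)³ P¹² P₃¹² = (P¹² + 27 X P₃¹²) (P¹² + 3 X P₃¹²)³`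
-/

set_option autoImplicit false

noncomputable section

namespace Fermat.Agent.Lib.Haupt

open PowerSeries

/-- `P = ∏ (1 - Xⁿ)`. -/
abbrev PZ : PowerSeries ℤ := ModularCurve.etaProd

theorem ex_X (d : ℕ) [NeZero d] : ex d (X : PowerSeries ℤ) = X ^ d := expand_X d (NeZero.ne d)

theorem ex_DeltaZ (d : ℕ) [NeZero d] : ex d DeltaZ = X ^ d * ex d PZ ^ 24 := by
  rw [DeltaZ, ex, map_mul, map_pow, expand_X]

theorem X_pow_mul_cancel {n : ℕ} {f g : PowerSeries ℤ} (h : X ^ n * f = X ^ n * g) : f = g :=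
  mul_left_cancel₀ (pow_ne_zero n X_ne_zero) h

theorem ps1 : E4Z ^ 3 * (PZ ^ 24 * ex 2 PZ ^ 24) = (PZ ^ 24 + C 256 * (X * ex 2 PZ ^ 24)) ^ 3 := by
  have h := Phi1_eq_zero
  rw [Phi1, sub_eq_zero, ex_DeltaZ, DeltaZ] at h
  apply X_pow_mul_cancel (n := 3)
  linear_combination h

theorem ps2 :
    ex 2 E4Z ^ 3 * (PZ ^ 24 * ex 2 PZ ^ 24) = (PZ ^ 24 + C 16 * (X * ex 2 PZ ^ 24)) ^ 3 := by
  have h := Phi2_eq_zero
  rw [Phi2, sub_eq_zero, ex_DeltaZ, DeltaZ] at h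
  apply X_pow_mul_cancel (n := 3)
  linear_combination h

theorem constantCoeff_PZ : constantCoeff PZ = 1 := ModularCurve.constantCoeff_etaProd

theorem constantCoeff_ex (d : ℕ) [NeZero d] (f : PowerSeries ℤ) :
    constantCoeff (ex d f) = constantCoeff f := constantCoeff_expand d (NeZero.ne d) f

/-- In `ℤ⟦X⟧`: if `(X² u)² = (X² v)²` and `u`, `v` both have constant coefficient `1`,
then `u = v`. -/
theorem eq_of_sq_eq_sq {u v : PowerSeries ℤ} (hu : constantCoeff u = 1)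
    (hv : constantCoeff v = 1) (h : (X ^ 2 * u) ^ 2 = (X ^ 2 * v) ^ 2) : u = v := by
  rcases sq_eq_sq_iff_eq_or_eq_neg.mp h with h1 | h1
  · exact X_pow_mul_cancel h1
  · exfalso
    have h2 : u = -v := X_pow_mul_cancel (n := 2) (by rw [h1]; ring)
    have h3 := congrArg constantCoeff h2
    rw [map_neg, hu, hv] at h3
    norm_num at h3

theorem ps3 :
    E4Z ^ 3 * (PZ ^ 12 * ex 3 PZ ^ 12)
      = (PZ ^ 12 + C 27 * (X * ex 3 PZ ^ 12)) * (PZ ^ 12 + C 243 * (X * ex 3 PZ ^ 12)) ^ 3 := by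
  have h := Phi3_eq_zero
  rw [Phi3, sub_eq_zero, ex_DeltaZ, DeltaZ] at h
  set A := PZ ^ 12 with hA
  set Q := ex 3 PZ ^ 12 with hQ
  have hA2 : PZ ^ 24 = A ^ 2 := by rw [hA]; ring
  have hQ2 : ex 3 PZ ^ 24 = Q ^ 2 := by rw [hQ]; ring
  rw [hA2, hQ2] at h
  have hcA : constantCoeff A = 1 := by rw [hA, map_pow, constantCoeff_PZ, one_pow]
  have hcQ : constantCoeff Q = 1 := by
    rw [hQ, map_pow, constantCoeff_ex, constantCoeff_PZ, one_pow]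
  have hcE : constantCoeff E4Z = 1 := ModularCurve.constantCoeff_eisenstein4
  have key := eq_of_sq_eq_sq
    (u := A * Q * (E4Z ^ 3 - (C 756 * (X * A ^ 2) + C 19131876 * (X ^ 3 * Q ^ 2))))
    (v := A ^ 4 + (C 196830 * (X ^ 2 * (A ^ 2 * Q ^ 2)) + C 387420489 * (X ^ 4 * Q ^ 4)))
    (by simp [hcA, hcQ, hcE]) (by simp [hcA]) (by linear_combination h)
  have e1 : (C (27 : ℤ) : PowerSeries ℤ) = 27 := map_ofNat C 27
  have e2 : (C (243 : ℤ) : PowerSeries ℤ) = 243 := map_ofNat C 243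
  have e3 : (C (756 : ℤ) : PowerSeries ℤ) = 756 := map_ofNat C 756
  have e4 : (C (19131876 : ℤ) : PowerSeries ℤ) = 19131876 := map_ofNat C 19131876
  have e5 : (C (196830 : ℤ) : PowerSeries ℤ) = 196830 := map_ofNat C 196830
  have e6 : (C (387420489 : ℤ) : PowerSeries ℤ) = 387420489 := map_ofNat C 387420489
  rw [e3, e4, e5, e6] at key
  rw [e1, e2]
  linear_combination key

theorem ps4 :
    ex 3 E4Z ^ 3 * (PZ ^ 12 * ex 3 PZ ^ 12)
      = (PZ ^ 12 + C 27 * (X * ex 3 PZ ^ 12)) * (PZ ^ 12 + C 3 * (X * ex 3 PZ ^ 12)) ^ 3 := by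
  have h := Phi4_eq_zero
  rw [Phi4, sub_eq_zero, ex_DeltaZ, DeltaZ] at h
  set A := PZ ^ 12 with hA
  set Q := ex 3 PZ ^ 12 with hQ
  have hA2 : PZ ^ 24 = A ^ 2 := by rw [hA]; ring
  have hQ2 : ex 3 PZ ^ 24 = Q ^ 2 := by rw [hQ]; ring
  rw [hA2, hQ2] at h
  have hcA : constantCoeff A = 1 := by rw [hA, map_pow, constantCoeff_PZ, one_pow]
  have hcQ : constantCoeff Q = 1 := by
    rw [hQ, map_pow, constantCoeff_ex, constantCoeff_PZ, one_pow]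
  have hcE : constantCoeff (ex 3 E4Z) = 1 := by
    rw [constantCoeff_ex]; exact ModularCurve.constantCoeff_eisenstein4
  have key := eq_of_sq_eq_sq
    (u := A * Q * (ex 3 E4Z ^ 3 - (C 36 * (X * A ^ 2) + C 756 * (X ^ 3 * Q ^ 2))))
    (v := A ^ 4 + (C 270 * (X ^ 2 * (A ^ 2 * Q ^ 2)) + C 729 * (X ^ 4 * Q ^ 4)))
    (by simp [hcA, hcQ, hcE]) (by simp [hcA]) (by linear_combination h)
  have e1 : (C (27 : ℤ) : PowerSeries ℤ) = 27 := map_ofNat C 27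
  have e2 : (C (3 : ℤ) : PowerSeries ℤ) = 3 := map_ofNat C 3
  have e3 : (C (36 : ℤ) : PowerSeries ℤ) = 36 := map_ofNat C 36
  have e4 : (C (756 : ℤ) : PowerSeries ℤ) = 756 := map_ofNat C 756
  have e5 : (C (270 : ℤ) : PowerSeries ℤ) = 270 := map_ofNat C 270
  have e6 : (C (729 : ℤ) : PowerSeries ℤ) = 729 := map_ofNat C 729
  rw [e3, e4, e5, e6] at key
  rw [e1, e2]
  linear_combination key

end Fermat.Agent.Lib.Haupt
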