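import Fermat.Agent.Lib.Haupt.Analytic
import Fermat.Prelude.Thm_ModularForm_sturm_bound_Gamma0

/-!
# The four formal modular identities, via the Sturm bound (helper637)
-/

set_option autoImplicit false

open UpperHalfPlane ModularForm CongruenceSubgroup MatrixGroups
open Matrix.SpecialLinearGroup Filter Topology
open scoped Manifold

noncomputable section

namespace Fermat.Agent.Lib.Haupt

/-- Crude bound for the index of `Γ₀(N)`. -/
theorem index_Gamma0_le (N : ℕ) [NeZero N] : (Gamma0 N).index ≤ N ^ 2 := by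
  classical
  let f : SL(2, ℤ) ⧸ Gamma0 N → ZMod N × ZMod N :=
    fun q => (((q.out 0 0 : ℤ) : ZMod N), ((q.out 1 0 : ℤ) : ZMod N))
  have hf : Function.Injective f := by
    intro x y hxy
    rw [← QuotientGroup.out_eq' x, ← QuotientGroup.out_eq' y]
    rw [QuotientGroup.eq]
    rw [CongruenceSubgroup.Gamma0_mem]
    simp only [f, Prod.mk.injEq] at hxy
    obtain ⟨h0, h1⟩ := hxy
    set A := x.out with hA
    set B := y.out with hB
    have hAinv : (A⁻¹ * B) 1 0 = - A 1 0 * B 0 0 + A 0 0 * B 1 0 := by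
      rw [Matrix.SpecialLinearGroup.coe_mul, Matrix.SpecialLinearGroup.coe_inv,
        Matrix.adjugate_fin_two, Matrix.mul_apply]
      simp [Fin.sum_univ_two]
    rw [hAinv]
    push_cast
    rw [h0, h1]
    ring
  have := Nat.card_le_card_of_injective f hf
  have hcard : Nat.card (ZMod N × ZMod N) = N ^ 2 := by
    rw [Nat.card_prod, Nat.card_zmod, sq]
  rw [hcard] at this
  exact this

theorem sturm_G0 (N : ℕ) [NeZero N] {k : ℤ} (f : ModularForm (G0 N) k) (B : ℕ)
    (hB : (k * (N : ℤ) ^ 2).toNat / 12 ≤ B)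
    (h : ∀ n : ℕ, n ≤ B → (qExpansion 1 f).coeff n = 0) : f = 0 := by
  refine ModularForm.sturm_bound_Gamma0 N f (fun n hn => h n (le_trans hn (le_trans ?_ hB)))
  apply Nat.div_le_div_right
  have hidx : ((Gamma0 N).index : ℤ) ≤ (N : ℤ) ^ 2 := by exact_mod_cast index_Gamma0_le N
  by_cases hk : 0 ≤ k
  · exact Int.toNat_le_toNat (mul_le_mul_of_nonneg_left hidx hk)
  · have hneg : k * ((Gamma0 N).index : ℤ) ≤ 0 :=
      mul_nonpos_of_nonpos_of_nonneg (le_of_lt (not_le.mp hk)) (Int.natCast_nonneg _)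
    rw [Int.toNat_of_nonpos hneg]
    exact Nat.zero_le _

/-- Injectivity of the coefficient map `ℤ⟦X⟧ → ℂ⟦X⟧`. -/
theorem map_intCast_injective :
    Function.Injective (PowerSeries.map (Int.castRingHom ℂ)) := by
  intro f g h
  ext n
  have := congrArg (PowerSeries.coeff n) h
  rw [PowerSeries.coeff_map, PowerSeries.coeff_map, eq_intCast, eq_intCast] at this
  exact_mod_cast this

/-! ### The forms -/

/-- `E₄` on `Γ₀(d)`. -/
abbrev eR (d : ℕ) : ModularForm (G0 d) ((4 : ℕ) : ℤ) := res d E₄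
/-- `Δ` on `Γ₀(d)`. -/
abbrev dR (d : ℕ) : ModularForm (G0 d) 12 := res d DeltaMF
/-- `E₄(dτ)` on `Γ₀(d)`. -/
abbrev eL (d : ℕ) [NeZero d] : ModularForm (G0 d) ((4 : ℕ) : ℤ) := lev d E₄
/-- `Δ(dτ)` on `Γ₀(d)`. -/
abbrev dL (d : ℕ) [NeZero d] : ModularForm (G0 d) 12 := lev d DeltaMF

theorem qExpansion_eR (d : ℕ) :
    qExpansion 1 (eR d) = E4Z.map (Int.castRingHom ℂ) := qExpansion_E4

theorem qExpansion_dR (d : ℕ) :
    qExpansion 1 (dR d) = DeltaZ.map (Int.castRingHom ℂ) := qExpansion_DeltaMF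

theorem qExpansion_eL (d : ℕ) [NeZero d] :
    qExpansion 1 (eL d) = (ex d E4Z).map (Int.castRingHom ℂ) := by
  rw [eL, qExpansion_lev, qExpansion_E4, PowerSeries.map_expand]

theorem qExpansion_dL (d : ℕ) [NeZero d] :
    qExpansion 1 (dL d) = (ex d DeltaZ).map (Int.castRingHom ℂ) := by
  rw [dL, qExpansion_lev, qExpansion_DeltaMF, PowerSeries.map_expand]

section qE

variable {d : ℕ} {k k' : ℤ}

theorem qE_add (f g : ModularForm (G0 d) k) :
    qExpansion 1 ((f + g : ModularForm (G0 d) k) : ℍ → ℂ) = qExpansion 1 f + qExpansion 1 g :=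
  ModularForm.qExpansion_add one_pos (one_mem_strictPeriods_G0 d) f g

theorem qE_sub (f g : ModularForm (G0 d) k) :
    qExpansion 1 ((f - g : ModularForm (G0 d) k) : ℍ → ℂ) = qExpansion 1 f - qExpansion 1 g :=
  ModularForm.qExpansion_sub one_pos (one_mem_strictPeriods_G0 d) f g

theorem qE_smul (c : ℂ) (f : ModularForm (G0 d) k) :
    qExpansion 1 ((c • f : ModularForm (G0 d) k) : ℍ → ℂ)
      = PowerSeries.C c * qExpansion 1 f := by
  rw [← PowerSeries.smul_eq_C_mul]
  exact ModularForm.qExpansion_smul one_pos (one_mem_strictPeriods_G0 d) c f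

theorem qE_mul (f : ModularForm (G0 d) k) (g : ModularForm (G0 d) k') :
    qExpansion 1 (f.mul g) = qExpansion 1 f * qExpansion 1 g :=
  ModularForm.qExpansion_mul one_pos (one_mem_strictPeriods_G0 d) f g

theorem qE_pow (f : ModularForm (G0 d) k) (n : ℕ) :
    qExpansion 1 (f.pow n) = qExpansion 1 f ^ n :=
  ModularForm.qExpansion_pow one_pos (one_mem_strictPeriods_G0 d) f n

theorem qE_mcast (h : k = k') (f : ModularForm (G0 d) k) :
    qExpansion 1 (mcast h f : ModularForm (G0 d) k') = qExpansion 1 f := rfl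

end qE

/-- `E₄³ Δ Δ₂ - (Δ + 256 Δ₂)³` as a modular form of weight 36 on `Γ₀(2)`. -/
def F1 : ModularForm (G0 2) 36 :=
  mcast (by norm_num) (((eR 2).pow 3).mul ((dR 2).mul (dL 2)))
    - mcast (by norm_num) ((dR 2 + (256 : ℂ) • dL 2).pow 3)

theorem qExpansion_F1 : qExpansion 1 F1 = Phi1.map (Int.castRingHom ℂ) := by
  rw [F1, qE_sub, qE_mcast, qE_mcast, qE_mul, qE_pow, qE_mul, qE_pow, qE_add, qE_smul,
    qExpansion_eR, qExpansion_dR, qExpansion_dL, Phi1]
  simp only [map_sub, map_mul, map_pow, map_add, PowerSeries.map_C]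
  simp

theorem F1_eq_zero : F1 = 0 := by
  refine sturm_G0 2 F1 12 (by decide) (fun n hn => ?_)
  rw [qExpansion_F1, PowerSeries.coeff_map, coeff_Phi1 (by omega), map_zero]

theorem Phi1_eq_zero : Phi1 = 0 := by
  apply map_intCast_injective
  rw [← qExpansion_F1, F1_eq_zero, map_zero]
  exact qExpansion_zero 1

/-- `E₄(2τ)³ Δ Δ₂ - (Δ + 16 Δ₂)³` as a modular form of weight 36 on `Γ₀(2)`. -/
def F2 : ModularForm (G0 2) 36 :=
  mcast (by norm_num) (((eL 2).pow 3).mul ((dR 2).mul (dL 2)))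
    - mcast (by norm_num) ((dR 2 + (16 : ℂ) • dL 2).pow 3)

theorem qExpansion_F2 : qExpansion 1 F2 = Phi2.map (Int.castRingHom ℂ) := by
  rw [F2, qE_sub, qE_mcast, qE_mcast, qE_mul, qE_pow, qE_mul, qE_pow, qE_add, qE_smul,
    qExpansion_eL, qExpansion_dR, qExpansion_dL, Phi2]
  simp only [map_sub, map_mul, map_pow, map_add, PowerSeries.map_C]
  simp

theorem F2_eq_zero : F2 = 0 := by
  refine sturm_G0 2 F2 12 (by decide) (fun n hn => ?_)
  rw [qExpansion_F2, PowerSeries.coeff_map, coeff_Phi2 (by omega), map_zero]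

theorem Phi2_eq_zero : Phi2 = 0 := by
  apply map_intCast_injective
  rw [← qExpansion_F2, F2_eq_zero, map_zero]
  exact qExpansion_zero 1

/-- `Δ Δ₃ (E₄³ - 756 Δ - 19131876 Δ₃)² - (Δ² + 196830 Δ Δ₃ + 387420489 Δ₃²)²`
as a modular form of weight 48 on `Γ₀(3)`. -/
def F3 : ModularForm (G0 3) 48 :=
  mcast (by norm_num) (((dR 3).mul (dL 3)).mul
      ((mcast (by norm_num) ((eR 3).pow 3) - ((756 : ℂ) • dR 3 + (19131876 : ℂ) • dL 3)
        : ModularForm (G0 3) 12).pow 2))
    - mcast (by norm_num)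
      ((mcast (by norm_num) ((dR 3).pow 2) + ((196830 : ℂ) • mcast (by norm_num) ((dR 3).mul (dL 3))
        + (387420489 : ℂ) • mcast (by norm_num) ((dL 3).pow 2)) : ModularForm (G0 3) 24).pow 2)

theorem qExpansion_F3 : qExpansion 1 F3 = Phi3.map (Int.castRingHom ℂ) := by
  rw [F3, qE_sub, qE_mcast, qE_mcast, qE_mul, qE_mul, qE_pow, qE_sub, qE_mcast, qE_pow, qE_add,
    qE_smul, qE_smul, qE_pow, qE_add, qE_mcast, qE_pow, qE_add, qE_smul, qE_smul, qE_mcast,
    qE_mcast, qE_mul, qE_pow,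
    qExpansion_eR, qExpansion_dR, qExpansion_dL, Phi3]
  simp only [map_sub, map_mul, map_pow, map_add, PowerSeries.map_C]
  simp

theorem F3_eq_zero : F3 = 0 := by
  refine sturm_G0 3 F3 36 (by decide) (fun n hn => ?_)
  rw [qExpansion_F3, PowerSeries.coeff_map, coeff_Phi3 (by omega), map_zero]

theorem Phi3_eq_zero : Phi3 = 0 := by
  apply map_intCast_injective
  rw [← qExpansion_F3, F3_eq_zero, map_zero]
  exact qExpansion_zero 1

/-- `Δ Δ₃ (E₄(3τ)³ - 36 Δ - 756 Δ₃)² - (Δ² + 270 Δ Δ₃ + 729 Δ₃²)²`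
as a modular form of weight 48 on `Γ₀(3)`. -/
def F4 : ModularForm (G0 3) 48 :=
  mcast (by norm_num) (((dR 3).mul (dL 3)).mul
      ((mcast (by norm_num) ((eL 3).pow 3) - ((36 : ℂ) • dR 3 + (756 : ℂ) • dL 3)
        : ModularForm (G0 3) 12).pow 2))
    - mcast (by norm_num)
      ((mcast (by norm_num) ((dR 3).pow 2) + ((270 : ℂ) • mcast (by norm_num) ((dR 3).mul (dL 3))
        + (729 : ℂ) • mcast (by norm_num) ((dL 3).pow 2)) : ModularForm (G0 3) 24).pow 2)

theorem qExpansion_F4 : qExpansion 1 F4 = Phi4.map (Int.castRingHom ℂ) := by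
  rw [F4, qE_sub, qE_mcast, qE_mcast, qE_mul, qE_mul, qE_pow, qE_sub, qE_mcast, qE_pow, qE_add,
    qE_smul, qE_smul, qE_pow, qE_add, qE_mcast, qE_pow, qE_add, qE_smul, qE_smul, qE_mcast,
    qE_mcast, qE_mul, qE_pow,
    qExpansion_eL, qExpansion_dR, qExpansion_dL, Phi4]
  simp only [map_sub, map_mul, map_pow, map_add, PowerSeries.map_C]
  simp

theorem F4_eq_zero : F4 = 0 := by
  refine sturm_G0 3 F4 36 (by decide) (fun n hn => ?_)
  rw [qExpansion_F4, PowerSeries.coeff_map, coeff_Phi4 (by omega), map_zero]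

theorem Phi4_eq_zero : Phi4 = 0 := by
  apply map_intCast_injective
  rw [← qExpansion_F4, F4_eq_zero, map_zero]
  exact qExpansion_zero 1

end Fermat.Agent.Lib.Haupt
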